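import Fermat.Agent.S05.AddSub
import Fermat.Agent.S05.H15.SawtoothVal

/-!
# From torsion points to the sawtooth lemma

For a `p`-torsion point `P` on a Weierstrass curve in the normal form `a₃ = a₆ = 0`, all of
whose nonzero multiples have `x`-coordinate in the maximal ideal, some multiple `k • P`
satisfies `v (x (k • P)) ^ p = v a₄ ^ 2`.
-/

set_option autoImplicit false

namespace Fermat.Agent.S05.H15

open WeierstrassCurve Fermat.Agent.S05

section zmul

variable {G : Type*} [AddCommGroup G] {p : ℕ} {P : G}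

/-- Multiples of a point indexed by `ZMod p`. -/
def zmul (P : G) (k : ZMod p) : G := k.val • P

lemma zmul_natCast [NeZero p] (hpP : p • P = 0) (n : ℕ) : zmul P (n : ZMod p) = n • P := by
  unfold zmul
  rw [ZMod.val_natCast]
  conv_rhs => rw [← Nat.mod_add_div n p]
  rw [add_nsmul, mul_nsmul, hpP, smul_zero, add_zero]

lemma zmul_zero [NeZero p] : zmul P (0 : ZMod p) = 0 := by simp [zmul]

lemma zmul_add [NeZero p] (hpP : p • P = 0) (a b : ZMod p) :
    zmul P (a + b) = zmul P a + zmul P b := by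
  have h : a + b = ((a.val + b.val : ℕ) : ZMod p) := by
    push_cast
    rw [ZMod.natCast_zmod_val, ZMod.natCast_zmod_val]
  rw [h, zmul_natCast hpP, add_nsmul]
  rfl

lemma zmul_neg [NeZero p] (hpP : p • P = 0) (a : ZMod p) : zmul P (-a) = -zmul P a :=
  eq_neg_of_add_eq_zero_left (by rw [← zmul_add hpP, neg_add_cancel, zmul_zero])

lemma zmul_sub [NeZero p] (hpP : p • P = 0) (a b : ZMod p) :
    zmul P (a - b) = zmul P a - zmul P b := by
  rw [sub_eq_add_neg, zmul_add hpP, zmul_neg hpP, sub_eq_add_neg]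

lemma not_dvd_val [NeZero p] {k : ZMod p} (hk : k ≠ 0) : ¬ p ∣ k.val := by
  intro h
  have hlt := ZMod.val_lt k
  have hpos : 0 < k.val := Nat.pos_of_ne_zero (by rwa [Ne, ZMod.val_eq_zero])
  exact absurd (Nat.le_of_dvd hpos h) (not_le.mpr hlt)

lemma zmul_ne_zero [Fact p.Prime] (hP0 : P ≠ 0) (hpP : p • P = 0) {k : ZMod p} (hk : k ≠ 0) :
    zmul P k ≠ 0 := by
  intro h
  have hord : addOrderOf P = p := addOrderOf_eq_prime hpP hP0
  have hdvd : addOrderOf P ∣ k.val := addOrderOf_dvd_of_nsmul_eq_zero h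
  rw [hord] at hdvd
  exact not_dvd_val hk hdvd

lemma zmul_injective [Fact p.Prime] (hP0 : P ≠ 0) (hpP : p • P = 0) :
    Function.Injective (zmul P (p := p)) := by
  intro a b h
  by_contra hab
  exact zmul_ne_zero hP0 hpP (sub_ne_zero.mpr hab) (by rw [zmul_sub hpP, h, sub_self])

end zmul

universe u

variable {L : Type u} [Field L] [DecidableEq L]

/-- The family of `x`-coordinates of the multiples of a `p`-torsion point is a `SawFamily`. -/
theorem sawFamily_of_torsion {W : Affine L} (A : ValuationSubring L) (h₃ : W.a₃ = 0)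
    (h₆ : W.a₆ = 0) (hb₂ : A.valuation W.b₂ = 1) (h2 : A.valuation (2 : L) = 1)
    (ha₄ : A.valuation W.a₄ < 1) (ha₄0 : W.a₄ ≠ 0) {p : ℕ} [Fact p.Prime] (hp5 : 5 ≤ p)
    {P : W.Point} (hP0 : P ≠ 0) (hpP : p • P = 0)
    (hm : ∀ k : ℕ, ¬ p ∣ k → A.valuation (xOf (k • P)) < 1) :
    SawFamily A.valuation p W.a₄ W.b₂ (fun k => xOf (zmul P k)) := by
  have hb4 : W.b₄ = 2 * W.a₄ := by simp [b₄, h₃]
  have hb6 : W.b₆ = 0 := by simp [b₆, h₃, h₆]
  have hb8 : W.b₈ = -W.a₄ ^ 2 := by simp [b₈, h₃, h₆]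
  have hne : ∀ {k j : ZMod p}, k ≠ 0 → j ≠ 0 → k ≠ j → k ≠ -j →
      xOf (zmul P k) ≠ xOf (zmul P j) := by
    intro k j hk hj hkj hkj'
    rw [Ne, xOf_eq_iff (zmul_ne_zero hP0 hpP hk) (zmul_ne_zero hP0 hpP hj), ← zmul_neg hpP]
    rintro (h | h)
    · exact hkj (zmul_injective hP0 hpP h)
    · exact hkj' (zmul_injective hP0 hpP h)
  refine
    { h2 := h2
      hb₂ := hb₂
      ha₄ := ha₄
      ha₄0 := ha₄0
      hx := fun k hk => hm _ (not_dvd_val hk)
      hneg := fun k => ?_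
      hprod := fun k j hk hj hkj hkj' => ?_
      hsum := fun k j hk hj hkj hkj' => ?_
      hdup := fun k hk => ?_ }
  · show xOf (zmul P (-k)) = xOf (zmul P k)
    rw [zmul_neg hpP, xOf_neg]
  · obtain ⟨-, -, e₃, -⟩ := xOf_addsub (zmul_ne_zero hP0 hpP hk) (zmul_ne_zero hP0 hpP hj)
      (hne hk hj hkj hkj')
    show xOf (zmul P (k + j)) * xOf (zmul P (k - j)) * (xOf (zmul P k) - xOf (zmul P j)) ^ 2 =
      (xOf (zmul P k) * xOf (zmul P j) - W.a₄) ^ 2
    rw [zmul_add hpP, zmul_sub hpP, e₃, hb4, hb6, hb8]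
    ring
  · obtain ⟨-, -, -, e₄⟩ := xOf_addsub (zmul_ne_zero hP0 hpP hk) (zmul_ne_zero hP0 hpP hj)
      (hne hk hj hkj hkj')
    show (xOf (zmul P (k + j)) + xOf (zmul P (k - j))) * (xOf (zmul P k) - xOf (zmul P j)) ^ 2 =
      xOf (zmul P k) * xOf (zmul P j) * (W.b₂ + 2 * (xOf (zmul P k) + xOf (zmul P j))) +
        2 * W.a₄ * (xOf (zmul P k) + xOf (zmul P j))
    rw [zmul_add hpP, zmul_sub hpP, e₄, hb4, hb6]
    ring
  · have h2k : zmul P k + zmul P k ≠ 0 := by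
      rw [← zmul_add hpP, ← two_mul]
      exact zmul_ne_zero hP0 hpP (mul_ne_zero (SawFamily.two_ne_zero_zmod hp5) hk)
    have e := xOf_dbl (zmul_ne_zero hP0 hpP hk) h2k
    show xOf (zmul P (2 * k)) * xOf (zmul P k) *
        (4 * xOf (zmul P k) ^ 2 + W.b₂ * xOf (zmul P k) + 4 * W.a₄) =
      (xOf (zmul P k) ^ 2 - W.a₄) ^ 2
    rw [two_mul, zmul_add hpP]
    rw [hb4, hb6, hb8] at e
    linear_combination e

/-- Some multiple `k • P` of a `p`-torsion point `P`, all of whose nonzero multiples have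
`x`-coordinate in the maximal ideal, satisfies `v (x (k • P)) ^ p = v a₄ ^ 2`. -/
theorem exists_multiple_val {W : Affine L} (A : ValuationSubring L) (h₃ : W.a₃ = 0)
    (h₆ : W.a₆ = 0) (hb₂ : A.valuation W.b₂ = 1) (h2 : A.valuation (2 : L) = 1)
    (ha₄ : A.valuation W.a₄ < 1) (ha₄0 : W.a₄ ≠ 0) {p : ℕ} (hp : p.Prime) (hp5 : 5 ≤ p)
    {P : W.Point} (hP0 : P ≠ 0) (hpP : p • P = 0)
    (hm : ∀ k : ℕ, ¬ p ∣ k → A.valuation (xOf (k • P)) < 1) :
    ∃ k : ℕ, ¬ p ∣ k ∧ A.valuation (xOf (k • P)) ^ p = A.valuation W.a₄ ^ 2 := by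
  have : Fact p.Prime := ⟨hp⟩
  obtain ⟨k, hk, hkv⟩ :=
    (sawFamily_of_torsion A h₃ h₆ hb₂ h2 ha₄ ha₄0 hp5 hP0 hpP hm).main hp5
  exact ⟨k.val, not_dvd_val hk, hkv⟩

end Fermat.Agent.S05.H15
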