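import Mathlib.Algebra.Order.Group.Defs
import Mathlib.Algebra.Order.Group.Units
import Mathlib.Algebra.Order.Monoid.TypeTags
import Mathlib.Tactic.Abel
import Mathlib.Tactic.Linarith
import Mathlib.Tactic.Module
import Mathlib.Tactic.LinearCombination
import Mathlib.Data.Nat.Prime.Basic

/-!
# The sawtooth lemma (pure ordered-group combinatorics)

Used for the multiplicative-reduction case of S05: the valuations of the
`x`-coordinates of the multiples of a `p`-torsion point reducing to the node.
-/

set_option autoImplicit false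

namespace Fermat.Agent.S05.H15

section core

variable {G : Type*} [AddCommGroup G] [LinearOrder G] [IsOrderedAddMonoid G]

/-- Additive form of the sawtooth lemma. -/
theorem sawtooth_core_add {p : ℕ} (hp : p.Prime) (hp5 : 5 ≤ p) (w : ℕ → G) (α : G)
    (h0 : w 0 = 0) (hω : w 1 < 0) (hα : α < w 1)
    (hsymm : ∀ n, 1 ≤ n → n < p → w (p - n) = w n)
    (hdist : ∀ k j, 1 ≤ k → k < j → j < p → k + j ≠ p → w k ≠ w j)
    (hrec : ∀ n, 1 ≤ n → n + 2 ≤ p →
      (α < w n + w 1 → w (n + 1) + w (n - 1) + 2 • w 1 = 2 • (w n + w 1)) ∧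
      (w n + w 1 < α → w (n + 1) + w (n - 1) + 2 • w 1 = 2 • α) ∧
      (w n + w 1 = α → w (n + 1) + w (n - 1) + 2 • w 1 ≤ 2 • α)) :
    p • w 1 = 2 • α := by
  set ω := w 1 with hωdef
  have hmono : ∀ n : ℕ, (n + 1) • ω < n • ω := fun n => by
    rw [succ_nsmul]; exact add_lt_of_neg_right _ hω
  have hanti : ∀ m k : ℕ, (m + k) • ω ≤ m • ω := by
    intro m k
    induction k with
    | zero => simp
    | succ k ih => exact le_trans (le_of_lt (by simpa [add_assoc] using hmono (m + k))) ih
  -- up-slope
  have U : ∀ n, n < p → α < n • ω → w n = n • ω := by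
    intro n
    induction n using Nat.strong_induction_on with
    | _ n ih =>
      intro hn hαn
      match n, ih, hn, hαn with
      | 0, _, _, _ => simpa using h0
      | 1, _, _, _ => simp [hωdef]
      | (n + 2), ih, hn, hαn =>
        have h1 : w (n + 1) = (n + 1) • ω :=
          ih (n + 1) (by omega) (by omega) (lt_trans hαn (hmono (n + 1)))
        have h2 : w n = n • ω :=
          ih n (by omega) (by omega) (lt_trans hαn (lt_trans (hmono (n + 1)) (hmono n)))
        have h3 : α < w (n + 1) + ω := by
          rw [h1]; convert hαn using 1; module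
        have h4 := (hrec (n + 1) (by omega) (by omega)).1 h3
        simp only [Nat.add_sub_cancel] at h4
        rw [h1, h2] at h4
        linear_combination (norm := module) h4
  obtain ⟨h, rfl⟩ : ∃ h, p = 2 * h + 1 := by
    rcases hp.eq_two_or_odd' with h2 | ⟨h, hh⟩
    · omega
    · exact ⟨h, hh⟩
  have hh2 : 2 ≤ h := by omega
  -- existence of a first index past the threshold
  have hex : ∃ m : ℕ, m • ω ≤ α := by
    refine ⟨2 * h, ?_⟩
    by_contra hcon
    rw [not_le] at hcon
    have h1 := U (2 * h) (by omega) hcon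
    have h2 := hsymm 1 le_rfl (by omega)
    rw [show 2 * h + 1 - 1 = 2 * h by omega, h1] at h2
    have h3 : (2 * h) • ω < ω := by
      have := hanti 2 (2 * h - 2)
      rw [show 2 + (2 * h - 2) = 2 * h by omega] at this
      refine lt_of_le_of_lt this ?_
      simpa using hmono 1
    exact (ne_of_lt h3) h2
  classical
  set m₀ := Nat.find hex with hm₀
  have hspec : m₀ • ω ≤ α := Nat.find_spec hex
  have hmin : ∀ m, m < m₀ → α < m • ω := fun m hm => not_le.mp (Nat.find_min hex hm)
  have hm2 : 2 ≤ m₀ := by
    by_contra hcon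
    have hlt : m₀ = 0 ∨ m₀ = 1 := by omega
    rcases hlt with h0' | h1'
    · rw [h0', zero_smul] at hspec
      exact absurd (lt_trans hα hω) (not_lt.mpr hspec)
    · rw [h1', one_smul] at hspec
      exact absurd hα (not_lt.mpr hspec)
  have hmh : m₀ ≤ h + 1 := by
    by_contra hcon
    have hlt : h + 1 < m₀ := not_le.mp hcon
    have e1 := U h (by omega) (hmin h (by omega))
    have e2 := U (h + 1) (by omega) (hmin (h + 1) hlt)
    have e3 := hsymm h (by omega) (by omega)
    rw [show 2 * h + 1 - h = h + 1 by omega, e1, e2] at e3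
    exact (ne_of_lt (hmono h)) e3
  obtain ⟨J, hJ⟩ : ∃ J, m₀ = J + 2 := ⟨m₀ - 2, by omega⟩
  rw [hJ] at hspec hmh
  have wJ : w J = J • ω := U J (by omega) (hmin J (by omega))
  have hαJ1 : α < (J + 1) • ω := hmin (J + 1) (by omega)
  have wJ1 : w (J + 1) = (J + 1) • ω := U (J + 1) (by omega) hαJ1
  have hr1 := hrec (J + 1) (by omega) (by omega)
  rw [show J + 1 - 1 = J by omega, show J + 1 + 1 = J + 2 by omega] at hr1
  have e12 : w (J + 1) + ω = (J + 2) • ω := by rw [wJ1]; module
  rcases eq_or_lt_of_le hspec with htie | hstrict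
  · -- the tie case is impossible
    exfalso
    have h1 := hr1.2.2 (by rw [e12, htie])
    rw [wJ] at h1
    have h2 : w (J + 2) ≤ α := by
      have e : w (J + 2) + J • ω + 2 • ω = w (J + 2) + α := by rw [← htie]; module
      rw [e, two_nsmul] at h1
      exact le_of_add_le_add_right h1
    have hr2 := hrec (J + 2) (by omega) (by omega)
    rw [show J + 2 - 1 = J + 1 by omega] at hr2
    have h4 := hr2.2.1 (add_lt_of_le_of_neg h2 hω)
    rw [wJ1] at h4
    have h5 : w (J + 2 + 1) = w (J + 1) := by
      rw [wJ1]
      have h6 : (2 : ℕ) • α = 2 • (J + 2) • ω := by rw [htie]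
      linear_combination (norm := module) h4 + h6
    exact hdist (J + 1) (J + 2 + 1) (by omega) (by omega) (by omega) (by omega) h5.symm
  · -- down-slope
    have D : ∀ k, J + 2 + k < 2 * h + 1 → w (J + 2 + k) + (J + 2 + k) • ω = 2 • α := by
      intro k
      induction k using Nat.strong_induction_on with
      | _ k ih =>
        intro hk
        match k, ih, hk with
        | 0, _, _ =>
          have h1 := hr1.2.1 (by rw [e12]; exact hstrict)
          rw [wJ] at h1
          linear_combination (norm := module) h1
        | 1, ih, hk =>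
          have d0 := ih 0 (by omega) (by omega)
          simp only [add_zero] at d0
          have hr2 := hrec (J + 2) (by omega) (by omega)
          rw [show J + 2 - 1 = J + 1 by omega] at hr2
          have hcmp : w (J + 2) + ω < α := by
            have e : w (J + 2) + ω = 2 • α - (J + 1) • ω := by
              linear_combination (norm := module) d0
            rw [e, sub_lt_iff_lt_add, two_nsmul]
            exact (add_lt_add_iff_left α).mpr hαJ1
          have h1 := hr2.2.1 hcmp
          rw [wJ1] at h1
          linear_combination (norm := module) h1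
        | (k + 2), ih, hk =>
          have d0 := ih k (by omega) (by omega)
          have d1 := ih (k + 1) (by omega) (by omega)
          have hr2 := hrec (J + 2 + (k + 1)) (by omega) (by omega)
          rw [show J + 2 + (k + 1) - 1 = J + 2 + k by omega,
            show J + 2 + (k + 1) + 1 = J + 2 + (k + 2) by omega] at hr2
          have hcmp : α < w (J + 2 + (k + 1)) + ω := by
            have e : w (J + 2 + (k + 1)) + ω = 2 • α - (J + 2 + k) • ω := by
              linear_combination (norm := module) d1
            rw [e, lt_sub_iff_add_lt, two_nsmul]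
            exact (add_lt_add_iff_left α).mpr (lt_of_le_of_lt (hanti (J + 2) k) hstrict)
          have h1 := hr2.1 hcmp
          linear_combination (norm := module) h1 + 2 • d1 - d0
    have hfin := D (2 * h - (J + 2)) (by omega)
    rw [show J + 2 + (2 * h - (J + 2)) = 2 * h by omega] at hfin
    have h2 := hsymm 1 le_rfl (by omega)
    rw [show 2 * h + 1 - 1 = 2 * h by omega] at h2
    rw [h2] at hfin
    rw [← hfin]
    module

end core

/-- Multiplicative form of the sawtooth lemma. -/
theorem sawtooth_core_mul {G : Type*} [CommGroup G] [LinearOrder G] [IsOrderedMonoid G]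
    {p : ℕ} (hp : p.Prime) (hp5 : 5 ≤ p) (w : ℕ → G) (α : G)
    (h0 : w 0 = 1) (hω : w 1 < 1) (hα : α < w 1)
    (hsymm : ∀ n, 1 ≤ n → n < p → w (p - n) = w n)
    (hdist : ∀ k j, 1 ≤ k → k < j → j < p → k + j ≠ p → w k ≠ w j)
    (hrec : ∀ n, 1 ≤ n → n + 2 ≤ p →
      (α < w n * w 1 → w (n + 1) * w (n - 1) * w 1 ^ 2 = (w n * w 1) ^ 2) ∧
      (w n * w 1 < α → w (n + 1) * w (n - 1) * w 1 ^ 2 = α ^ 2) ∧
      (w n * w 1 = α → w (n + 1) * w (n - 1) * w 1 ^ 2 ≤ α ^ 2)) :
    w 1 ^ p = α ^ 2 :=
  sawtooth_core_add (G := Additive G) hp hp5 (fun n => Additive.ofMul (w n)) (Additive.ofMul α)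
    h0 hω hα hsymm hdist hrec

end Fermat.Agent.S05.H15
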